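import Fermat.Agent.S26.Curves.G4b.TensorDomain

/-!
# S26 / P8 CURVES, leaf G4 (helper6623): integral over an algebraically closed field
# ==> geometrically integral;  products of integral schemes over `K` are integral.
-/

set_option autoImplicit false

open CategoryTheory AlgebraicGeometry Limits TensorProduct

namespace Fermat.Agent.S26.Curves.G4h6623

universe u

/-- A space covered by irreducible open subsets which pairwise intersect is irreducible. -/
theorem g4_irreducibleSpace_of_cover {Z : Type*} [TopologicalSpace Z] {ι : Type*} [Nonempty ι]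
    (W : ι → Set Z) (hopen : ∀ i, IsOpen (W i)) (hirr : ∀ i, IsIrreducible (W i))
    (hcov : ∀ z : Z, ∃ i, z ∈ W i) (hmeet : ∀ i j, (W i ∩ W j).Nonempty) :
    IrreducibleSpace Z := by
  have hne : Nonempty Z := by
    obtain ⟨i⟩ := ‹Nonempty ι›
    obtain ⟨z, -⟩ := (hirr i).nonempty
    exact ⟨z⟩
  have hpre : PreirreducibleSpace Z := by
    constructor
    rintro u v hu hv ⟨a, -, hau⟩ ⟨b, -, hbv⟩
    obtain ⟨i, hai⟩ := hcov a
    obtain ⟨j, hbj⟩ := hcov b
    obtain ⟨c, hci, hcj⟩ := hmeet i j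
    obtain ⟨d, hdi, hdu, hdj⟩ := (hirr i).isPreirreducible u (W j) hu (hopen j) ⟨a, hai, hau⟩
      ⟨c, hci, hcj⟩
    obtain ⟨e, -, heu, hev⟩ := (hirr j).isPreirreducible u v hu hv ⟨d, hdj, hdu⟩ ⟨b, hbj, hbv⟩
    exact ⟨e, trivial, heu, hev⟩
  exact { toPreirreducibleSpace := hpre, toNonempty := hne }

/-- Affine chart: `Spec R ×_K Spec S` is integral for domains `R`, `S` over `K` algebraically
closed. -/
theorem g4_isIntegral_pullback_Spec {K : Type u} [Field K] [IsAlgClosed K] (R S : CommRingCat.{u})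
    [IsDomain R] [IsDomain S] (a : Spec R ⟶ Spec (CommRingCat.of K))
    (b : Spec S ⟶ Spec (CommRingCat.of K)) : IsIntegral (pullback a b) := by
  obtain ⟨φ, rfl⟩ := Spec.map_surjective a
  obtain ⟨ψ, rfl⟩ := Spec.map_surjective b
  algebraize [φ.hom, ψ.hom]
  have hdom : IsDomain (R ⊗[K] S) := g4_isDomain_tensorProduct K R S
  have h1 : IsIntegral (Spec (CommRingCat.of (R ⊗[K] S))) := inferInstance
  exact isIntegral_of_isOpenImmersion (pullbackSpecIso K R S).hom

/-- **Over an algebraically closed field `K`, the fibre product `X ×_K Y` of two integral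
`K`-schemes is integral** (no finiteness hypotheses). -/
theorem g4_isIntegral_pullback {K : Type u} [Field K] [IsAlgClosed K] {X Y : Scheme.{u}}
    [IsIntegral X] [IsIntegral Y] (s : X ⟶ Spec (CommRingCat.of K))
    (t : Y ⟶ Spec (CommRingCat.of K)) : IsIntegral (pullback s t) := by
  let 𝒰 := X.affineCover
  let 𝒲 := Y.affineCover
  let 𝒱 := Scheme.Pullback.openCoverOfLeftRight 𝒰 𝒲 s t
  let F : ∀ ij : 𝒰.I₀ × 𝒲.I₀, pullback (𝒰.f ij.1 ≫ s) (𝒲.f ij.2 ≫ t) ⟶ pullback s t :=
    fun ij => pullback.map _ _ _ _ (𝒰.f ij.1) (𝒲.f ij.2) (𝟙 _) (Category.comp_id _)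
      (Category.comp_id _)
  have hFopen : ∀ ij, IsOpenImmersion (F ij) := fun ij => 𝒱.map_prop ij
  have hFcov : ∀ z : ↥(pullback s t), ∃ (ij : 𝒰.I₀ × 𝒲.I₀)
      (x : ↥(pullback (𝒰.f ij.1 ≫ s) (𝒲.f ij.2 ≫ t))), F ij x = z :=
    fun z => 𝒱.exists_eq z
  have hU : ∀ i : 𝒰.I₀, Nonempty (𝒰.X i) → IsIntegral (𝒰.X i) := fun i hne =>
    isIntegral_of_isOpenImmersion (𝒰.f i)
  have hW : ∀ j : 𝒲.I₀, Nonempty (𝒲.X j) → IsIntegral (𝒲.X j) := fun j hne =>
    isIntegral_of_isOpenImmersion (𝒲.f j)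
  have hchart : ∀ ij : 𝒰.I₀ × 𝒲.I₀, Nonempty (𝒰.X ij.1) → Nonempty (𝒲.X ij.2) →
      IsIntegral (pullback (𝒰.f ij.1 ≫ s) (𝒲.f ij.2 ≫ t)) :=
    fun ij hne hne' => by
      have h1 := hU ij.1 hne
      have h1' := hW ij.2 hne'
      have h2 : IsDomain _ := (affine_isIntegral_iff _).mp h1
      have h2' : IsDomain _ := (affine_isIntegral_iff _).mp h1'
      exact g4_isIntegral_pullback_Spec _ _ (𝒰.f ij.1 ≫ s) (𝒲.f ij.2 ≫ t)
  have hred : IsReduced (pullback s t) := by
    have : ∀ ij, IsReduced (𝒱.X ij) := fun ij => by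
      show IsReduced (pullback (𝒰.f ij.1 ≫ s) (𝒲.f ij.2 ≫ t))
      by_cases hne : Nonempty (𝒰.X ij.1) ∧ Nonempty (𝒲.X ij.2)
      · have := hchart ij hne.1 hne.2
        infer_instance
      · have hemp : IsEmpty ↥(pullback (𝒰.f ij.1 ≫ s) (𝒲.f ij.2 ≫ t)) := by
          rw [not_and_or, not_nonempty_iff, not_nonempty_iff] at hne
          rcases hne with h | h
          · exact Function.isEmpty (pullback.fst (𝒰.f ij.1 ≫ s) (𝒲.f ij.2 ≫ t))
          · exact Function.isEmpty (pullback.snd (𝒰.f ij.1 ≫ s) (𝒲.f ij.2 ≫ t))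
        exact ⟨fun U => inferInstance⟩
    exact IsReduced.of_openCover _ 𝒱
  have hrange : ∀ ij, Set.range (F ij) =
      pullback.fst s t ⁻¹' Set.range (𝒰.f ij.1) ∩ pullback.snd s t ⁻¹' Set.range (𝒲.f ij.2) :=
    fun ij => Scheme.Pullback.range_map (𝒰.f ij.1 ≫ s) (𝒲.f ij.2 ≫ t) s t (𝒰.f ij.1) (𝒲.f ij.2)
      (𝟙 _) (Category.comp_id _) (Category.comp_id _)
  have hirr : IrreducibleSpace ↥(pullback s t) := by
    have hneι : Nonempty {ij : 𝒰.I₀ × 𝒲.I₀ // Nonempty (𝒰.X ij.1) ∧ Nonempty (𝒲.X ij.2)} := by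
      obtain ⟨x⟩ : Nonempty X := inferInstance
      obtain ⟨y⟩ : Nonempty Y := inferInstance
      exact ⟨⟨(𝒰.idx x, 𝒲.idx y), ⟨(𝒰.covers x).choose⟩, ⟨(𝒲.covers y).choose⟩⟩⟩
    refine g4_irreducibleSpace_of_cover
      (fun ij : {ij : 𝒰.I₀ × 𝒲.I₀ // Nonempty (𝒰.X ij.1) ∧ Nonempty (𝒲.X ij.2)} =>
        Set.range (F ij.1))
      (fun ij => (F ij.1).isOpenEmbedding.isOpen_range) (fun ij => ?_) (fun z => ?_)
      (fun ij kl => ?_)
    · have := hchart ij.1 ij.2.1 ij.2.2
      rw [← Set.image_univ]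
      exact (IrreducibleSpace.isIrreducible_univ _).image _ (F ij.1).continuous.continuousOn
    · obtain ⟨ij, x, hx⟩ := hFcov z
      exact ⟨⟨ij, ⟨pullback.fst (𝒰.f ij.1 ≫ s) (𝒲.f ij.2 ≫ t) x⟩,
        ⟨pullback.snd (𝒰.f ij.1 ≫ s) (𝒲.f ij.2 ≫ t) x⟩⟩, x, hx⟩
    · rw [hrange ij.1, hrange kl.1]
      have h1 : (Set.range (𝒰.f ij.1.1) ∩ Set.range (𝒰.f kl.1.1)).Nonempty := by
        have hi : (Set.range (𝒰.f ij.1.1)).Nonempty := by
          have := ij.2.1; exact Set.range_nonempty _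
        have hj : (Set.range (𝒰.f kl.1.1)).Nonempty := by
          have := kl.2.1; exact Set.range_nonempty _
        exact nonempty_preirreducible_inter (𝒰.f ij.1.1).isOpenEmbedding.isOpen_range
          (𝒰.f kl.1.1).isOpenEmbedding.isOpen_range hi hj
      have h2 : (Set.range (𝒲.f ij.1.2) ∩ Set.range (𝒲.f kl.1.2)).Nonempty := by
        have hi : (Set.range (𝒲.f ij.1.2)).Nonempty := by
          have := ij.2.2; exact Set.range_nonempty _
        have hj : (Set.range (𝒲.f kl.1.2)).Nonempty := by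
          have := kl.2.2; exact Set.range_nonempty _
        exact nonempty_preirreducible_inter (𝒲.f ij.1.2).isOpenEmbedding.isOpen_range
          (𝒲.f kl.1.2).isOpenEmbedding.isOpen_range hi hj
      obtain ⟨x, hx, hx'⟩ := h1
      obtain ⟨y, hy, hy'⟩ := h2
      obtain ⟨z, hz, hz'⟩ := Scheme.Pullback.exists_preimage_pullback (f := s) (g := t) x y
        (Subsingleton.elim _ _)
      refine ⟨z, ⟨?_, ?_⟩, ⟨?_, ?_⟩⟩
      · rw [Set.mem_preimage, hz]; exact hx
      · rw [Set.mem_preimage, hz']; exact hy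
      · rw [Set.mem_preimage, hz]; exact hx'
      · rw [Set.mem_preimage, hz']; exact hy'
  exact isIntegral_of_irreducibleSpace_of_isReduced _

/-- `IsIntegral` is invariant under isomorphisms of schemes. -/
theorem g4_isIntegral_of_iso {X Y : Scheme.{u}} (e : X ≅ Y) [IsIntegral X] : IsIntegral Y := by
  have : Nonempty Y := ⟨e.hom (Nonempty.some inferInstance)⟩
  exact isIntegral_of_isOpenImmersion e.inv

/-- Any pullback square over `Spec K` (`K` algebraically closed) with integral legs has an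
integral vertex. -/
theorem g4_isIntegral_of_isPullback {K : Type u} [Field K] [IsAlgClosed K] {P X Y : Scheme.{u}}
    [IsIntegral X] [IsIntegral Y] {fst : P ⟶ X} {snd : P ⟶ Y}
    {s : X ⟶ Spec (CommRingCat.of K)} {t : Y ⟶ Spec (CommRingCat.of K)}
    (h : IsPullback fst snd s t) : IsIntegral P := by
  have := g4_isIntegral_pullback s t
  exact g4_isIntegral_of_iso h.isoPullback.symm

/-- **An integral scheme over an algebraically closed field is geometrically integral.** -/
theorem g4_geometricallyIntegral {K : Type u} [Field K] [IsAlgClosed K] {X : Scheme.{u}}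
    [IsIntegral X] (s : X ⟶ Spec (CommRingCat.of K)) : GeometricallyIntegral s := by
  rw [geometricallyIntegral_iff, geometrically_iff_of_commRing]
  intro L _ _ Y fst snd h
  exact g4_isIntegral_of_isPullback h

/-- In particular it is geometrically irreducible. -/
theorem g4_geometricallyIrreducible {K : Type u} [Field K] [IsAlgClosed K] {X : Scheme.{u}}
    [IsIntegral X] (s : X ⟶ Spec (CommRingCat.of K)) : GeometricallyIrreducible s := by
  have := g4_geometricallyIntegral s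
  infer_instance

end Fermat.Agent.S26.Curves.G4h6623
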