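import Mathlib

/-!
# S26 / P8 CURVES, leaf G4b (helper6623): a pushout of commutative rings is generated by its two legs
-/

set_option autoImplicit false

open CategoryTheory

namespace Fermat.Agent.S26.Curves.G4h6623

universe u

/-- In a pushout square of commutative rings, a subring containing the images of both legs is
everything. -/
theorem g4_subring_eq_top_of_isPushout {R₀ R₁ R₂ T : CommRingCat.{u}} {a : R₀ ⟶ R₁} {b : R₀ ⟶ R₂}
    {inl : R₁ ⟶ T} {inr : R₂ ⟶ T} (h : IsPushout a b inl inr) (S : Subring T)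
    (h₁ : ∀ r, inl.hom r ∈ S) (h₂ : ∀ r, inr.hom r ∈ S) : S = ⊤ := by
  let inl' : R₁ ⟶ CommRingCat.of S := CommRingCat.ofHom (inl.hom.codRestrict S h₁)
  let inr' : R₂ ⟶ CommRingCat.of S := CommRingCat.ofHom (inr.hom.codRestrict S h₂)
  let ι : CommRingCat.of S ⟶ T := CommRingCat.ofHom S.subtype
  have hl : inl' ≫ ι = inl := by ext r; rfl
  have hr : inr' ≫ ι = inr := by ext r; rfl
  have hw : a ≫ inl' = b ≫ inr' := by
    ext r
    have := congrArg (fun m => m.hom r) h.w
    exact this
  let d : T ⟶ CommRingCat.of S := h.desc inl' inr' hw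
  have hd : d ≫ ι = 𝟙 T := by
    apply h.hom_ext
    · rw [← Category.assoc, h.inl_desc, hl, Category.comp_id]
    · rw [← Category.assoc, h.inr_desc, hr, Category.comp_id]
  rw [eq_top_iff]
  intro t _
  have : ι.hom (d.hom t) = t := congrArg (fun m => m.hom t) hd
  rw [← this]
  exact (d.hom t).2

end Fermat.Agent.S26.Curves.G4h6623
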