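import Mathlib

/-!
# S26 / P8 CURVES, leaf G4b (helper6623): transcendence degree of a domain generated by two subalgebras

`g4_trdeg_le_of_sup_eq_top` : `P` a domain over a field `K`, `A₁ ⊔ A₂ = ⊤` for two subalgebras
`⟹ trdeg_K P ≤ trdeg_K A₁ + trdeg_K A₂`.
`g4_trdeg_le_of_range_sup_eq_top` : the same for two `K`-algebra maps `φ : A → P`, `ψ : B → P` whose ranges
generate `P`.
-/

set_option autoImplicit false

open Cardinal

namespace Fermat.Agent.S26.Curves.G4h6623

universe u v

theorem g4_trdeg_le_of_sup_eq_top {K : Type u} {P : Type v} [Field K] [CommRing P] [IsDomain P]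
    [Algebra K P] (A₁ A₂ : Subalgebra K P) (h : A₁ ⊔ A₂ = ⊤) :
    Algebra.trdeg K P ≤ Algebra.trdeg K A₁ + Algebra.trdeg K A₂ := by
  obtain ⟨t₁, ht₁⟩ := exists_isTranscendenceBasis K A₁
  obtain ⟨t₂, ht₂⟩ := exists_isTranscendenceBasis K A₂
  let s₁ : Set P := (fun a : A₁ => (a : P)) '' t₁
  let s₂ : Set P := (fun a : A₂ => (a : P)) '' t₂
  let E : Subalgebra K P := Algebra.adjoin K (s₁ ∪ s₂)
  have key : ∀ (A : Subalgebra K P) (t : Set A) (ht : IsTranscendenceBasis K ((↑) : t → A))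
      (hs : (fun a : A => (a : P)) '' t ⊆ s₁ ∪ s₂) (a : A), IsAlgebraic E (a : P) := by
    intro A t ht hs a
    have h1 : IsAlgebraic (Algebra.adjoin K (Set.range ((↑) : t → A))) a :=
      (ht.isAlgebraic).isAlgebraic a
    let f : Algebra.adjoin K (Set.range ((↑) : t → A)) →ₐ[K] E :=
      (A.val.comp (Subalgebra.val _)).codRestrict E (by
        intro x
        have hx : ((x : A) : P) ∈ (Algebra.adjoin K (Set.range ((↑) : t → A))).map A.val :=
          ⟨x, x.2, rfl⟩
        rw [AlgHom.map_adjoin] at hx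
        refine Algebra.adjoin_mono ?_ hx
        rintro _ ⟨_, ⟨b, rfl⟩, rfl⟩
        exact hs ⟨b, b.2, rfl⟩)
    have hf : Function.Injective f := by
      intro x y hxy
      have : ((x : A) : P) = ((y : A) : P) := congrArg (fun e : E => (e : P)) hxy
      exact Subtype.ext (Subtype.ext this)
    exact h1.ringHom_of_comp_eq f.toRingHom A.val.toRingHom hf (by ext; rfl)
  have halg : Algebra.IsAlgebraic E P := by
    constructor
    intro p
    have hle : A₁ ⊔ A₂ ≤ (Subalgebra.algebraicClosure E P).restrictScalars K := by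
      refine sup_le ?_ ?_
      · intro a ha
        exact key A₁ t₁ ht₁ Set.subset_union_left ⟨a, ha⟩
      · intro a ha
        exact key A₂ t₂ ht₂ Set.subset_union_right ⟨a, ha⟩
    rw [h] at hle
    exact hle (Algebra.mem_top : p ∈ (⊤ : Subalgebra K P))
  calc Algebra.trdeg K P ≤ #(s₁ ∪ s₂ : Set P) :=
        Algebra.IsAlgebraic.trdeg_le_cardinalMk K (s₁ ∪ s₂)
    _ ≤ #s₁ + #s₂ := Cardinal.mk_union_le _ _
    _ ≤ #t₁ + #t₂ := add_le_add Cardinal.mk_image_le Cardinal.mk_image_le
    _ = Algebra.trdeg K A₁ + Algebra.trdeg K A₂ := by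
        rw [ht₁.cardinalMk_eq_trdeg, ht₂.cardinalMk_eq_trdeg]

theorem g4_trdeg_le_of_range_sup_eq_top {K : Type u} {A B P : Type v} [Field K] [CommRing A]
    [CommRing B] [CommRing P] [IsDomain P] [Algebra K A] [Algebra K B] [Algebra K P]
    (φ : A →ₐ[K] P) (ψ : B →ₐ[K] P) (h : φ.range ⊔ ψ.range = ⊤) :
    Algebra.trdeg K P ≤ Algebra.trdeg K A + Algebra.trdeg K B := by
  refine (g4_trdeg_le_of_sup_eq_top φ.range ψ.range h).trans (add_le_add ?_ ?_)
  · exact trdeg_le_of_surjective φ.rangeRestrict φ.rangeRestrict_surjective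
  · exact trdeg_le_of_surjective ψ.rangeRestrict ψ.rangeRestrict_surjective

end Fermat.Agent.S26.Curves.G4h6623
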