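import Mathlib

/-!
# S26 / P8 CURVES, leaf G4 (helper6623): tensor products of domains over an algebraically closed field

`g4_isDomain_tensorProduct` : `K` algebraically closed, `R`, `S` commutative `K`-algebras that are
domains  ==>  `R ⊗[K] S` is a domain.  (Mathlib-only; this is the algebraic core of
"integral over an algebraically closed field ==> geometrically integral" and of
"products of varieties are varieties".)
-/

set_option autoImplicit false

open TensorProduct

namespace Fermat.Agent.S26.Curves.G4h6623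

universe u v w

section

variable {K : Type u} [Field K] [IsAlgClosed K]

/-- In a finitely generated domain over an algebraically closed field, a nonzero element is
nonzero at some `K`-point. -/
theorem g4_exists_algHom_ne_zero {S : Type v} [CommRing S] [IsDomain S] [Algebra K S]
    [Algebra.FiniteType K S] {f : S} (hf : f ≠ 0) : ∃ φ : S →ₐ[K] K, φ f ≠ 0 := by
  have hJR : IsJacobsonRing S := isJacobsonRing_of_finiteType (A := K)
  have hJ : (⊥ : Ideal S).jacobson = ⊥ := IsJacobsonRing.out hJR Ideal.isRadical_bot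
  have hmem : f ∉ (⊥ : Ideal S).jacobson := by rw [hJ]; simpa using hf
  have hex : ∃ m : Ideal S, m.IsMaximal ∧ f ∉ m := by
    by_contra hcon
    apply hmem
    rw [Ideal.jacobson, Ideal.mem_sInf]
    intro m hm
    by_contra hfm
    exact hcon ⟨m, hm.2, hfm⟩
  obtain ⟨m, hm, hfm⟩ := hex
  let _ : Field (S ⧸ m) := Ideal.Quotient.field m
  have hfin : Module.Finite K (S ⧸ m) := finite_of_finite_type_of_isJacobsonRing K (S ⧸ m)
  have hbij : Function.Bijective (algebraMap K (S ⧸ m)) :=
    IsAlgClosed.algebraMap_bijective_of_isIntegral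
  let e : K ≃ₐ[K] (S ⧸ m) := AlgEquiv.ofBijective (Algebra.ofId K _) hbij
  refine ⟨(e.symm : (S ⧸ m) →ₐ[K] K).comp (Ideal.Quotient.mkₐ K m), ?_⟩
  intro h0
  apply hfm
  have h1 : e.symm (Ideal.Quotient.mk m f) = 0 := h0
  have h2 : Ideal.Quotient.mk m f = 0 := by
    have := congrArg e h1
    simpa using this
  exact Ideal.Quotient.eq_zero_iff_mem.mp h2

/-- Evaluation at a `K`-point `φ` of `S`:  `S ⊗[K] R →ₐ[K] R`, `s ⊗ r ↦ φ s • r`. -/
noncomputable def g4_evalAt {S : Type v} {R : Type w} [CommRing S] [Algebra K S] [CommRing R]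
    [Algebra K R] (φ : S →ₐ[K] K) : S ⊗[K] R →ₐ[K] R :=
  (Algebra.TensorProduct.lid K R).toAlgHom.comp (Algebra.TensorProduct.map φ (AlgHom.id K R))

omit [IsAlgClosed K] in
theorem g4_evalAt_tmul {S : Type v} {R : Type w} [CommRing S] [Algebra K S] [CommRing R]
    [Algebra K R] (φ : S →ₐ[K] K) (s : S) (r : R) : g4_evalAt φ (s ⊗ₜ[K] r) = φ s • r := by
  simp [g4_evalAt]

omit [IsAlgClosed K] in
theorem g4_repr_evalAt {S : Type v} {R : Type w} [CommRing S] [Algebra K S] [CommRing R]
    [Algebra K R] {ι : Type*} (b : Module.Basis ι K R) (φ : S →ₐ[K] K) (x : S ⊗[K] R) (i : ι) :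
    b.repr (g4_evalAt φ x) i = φ ((Algebra.TensorProduct.basis S b).repr x i) := by
  induction x using TensorProduct.induction_on with
  | zero => simp
  | tmul s r =>
    rw [g4_evalAt_tmul, Algebra.TensorProduct.basis_repr_tmul, map_smul]
    simp
  | add x y hx hy => simp [hx, hy]

/-- Core: `S` finitely generated domain, `R` domain over `K` algebraically closed: no zero
divisors in `S ⊗[K] R`. -/
theorem g4_mul_eq_zero_of_finiteType {S : Type v} {R : Type w} [CommRing S] [IsDomain S]
    [Algebra K S] [Algebra.FiniteType K S] [CommRing R] [IsDomain R] [Algebra K R]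
    {x y : S ⊗[K] R} (hxy : x * y = 0) : x = 0 ∨ y = 0 := by
  classical
  by_contra hcon
  rw [not_or] at hcon
  obtain ⟨hx, hy⟩ := hcon
  let b := Module.Basis.ofVectorSpace K R
  let B := Algebra.TensorProduct.basis S b
  have hx' : B.repr x ≠ 0 := fun h => hx (by simpa using h)
  have hy' : B.repr y ≠ 0 := fun h => hy (by simpa using h)
  obtain ⟨i, hi⟩ := Finsupp.ne_iff.mp hx'
  obtain ⟨j, hj⟩ := Finsupp.ne_iff.mp hy'
  simp only [Finsupp.coe_zero, Pi.zero_apply] at hi hj
  obtain ⟨φ, hφ⟩ := g4_exists_algHom_ne_zero (K := K) (mul_ne_zero hi hj)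
  rw [map_mul] at hφ
  have h1 : g4_evalAt φ x ≠ 0 := by
    intro h
    have := g4_repr_evalAt b φ x i
    rw [h] at this
    simp only [map_zero, Finsupp.coe_zero, Pi.zero_apply] at this
    exact hφ (by rw [← this, zero_mul])
  have h2 : g4_evalAt φ y ≠ 0 := by
    intro h
    have := g4_repr_evalAt b φ y j
    rw [h] at this
    simp only [map_zero, Finsupp.coe_zero, Pi.zero_apply] at this
    exact hφ (by rw [← this, mul_zero])
  have h3 : g4_evalAt φ x * g4_evalAt φ y = 0 := by
    rw [← map_mul, hxy, map_zero]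
  exact (mul_ne_zero h1 h2) h3

omit [IsAlgClosed K] in
theorem g4_map_inclusion {R : Type w} {S : Type v} [CommRing R] [Algebra K R] [CommRing S]
    [Algebra K S] {D₁ D : Subalgebra K S} (h : D₁ ≤ D) (z : R ⊗[K] D₁) :
    Algebra.TensorProduct.map (AlgHom.id R R) D.val
      (Algebra.TensorProduct.map (AlgHom.id R R) (Subalgebra.inclusion h) z) =
    Algebra.TensorProduct.map (AlgHom.id R R) D₁.val z := by
  induction z using TensorProduct.induction_on with
  | zero => simp
  | tmul r s => simp
  | add x y hx hy => simp [hx, hy]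

/-- **Tensor products of domains over an algebraically closed field have no zero divisors.** -/
theorem g4_mul_eq_zero {R : Type w} {S : Type v} [CommRing R] [IsDomain R] [Algebra K R]
    [CommRing S] [IsDomain S] [Algebra K S] {x y : R ⊗[K] S} (hxy : x * y = 0) :
    x = 0 ∨ y = 0 := by
  obtain ⟨D₁, hD₁, z₁, hz₁⟩ := exists_fg_and_mem_baseChange x
  obtain ⟨D₂, hD₂, z₂, hz₂⟩ := exists_fg_and_mem_baseChange y
  let D : Subalgebra K S := D₁ ⊔ D₂
  have hDfg : D.FG := hD₁.sup hD₂
  have : Algebra.FiniteType K D := (Subalgebra.fg_iff_finiteType D).mp hDfg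
  let x' : R ⊗[K] D :=
    Algebra.TensorProduct.map (AlgHom.id R R) (Subalgebra.inclusion (le_sup_left : D₁ ≤ D)) z₁
  let y' : R ⊗[K] D :=
    Algebra.TensorProduct.map (AlgHom.id R R) (Subalgebra.inclusion (le_sup_right : D₂ ≤ D)) z₂
  have hx' : Algebra.TensorProduct.map (AlgHom.id R R) D.val x' = x := by
    rw [← hz₁]; exact g4_map_inclusion _ z₁
  have hy' : Algebra.TensorProduct.map (AlgHom.id R R) D.val y' = y := by
    rw [← hz₂]; exact g4_map_inclusion _ z₂
  have hinj : Function.Injective (Algebra.TensorProduct.map (AlgHom.id R R) D.val) :=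
    Module.Flat.lTensor_preserves_injective_linearMap _ Subtype.val_injective
  have hxy' : x' * y' = 0 := by
    apply hinj
    rw [map_mul, hx', hy', hxy, map_zero]
  -- swap the factors to apply the core lemma
  let c := Algebra.TensorProduct.comm K R D
  have hc : c x' * c y' = 0 := by rw [← map_mul, hxy', map_zero]
  rcases g4_mul_eq_zero_of_finiteType hc with h | h
  · left
    have : x' = 0 := by simpa using h
    rw [← hx', this, map_zero]
  · right
    have : y' = 0 := by simpa using h
    rw [← hy', this, map_zero]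

/-- **`K` algebraically closed, `R`, `S` domains over `K`  ==>  `R ⊗[K] S` is a domain.** -/
theorem g4_isDomain_tensorProduct (K : Type u) [Field K] [IsAlgClosed K] (R : Type w)
    (S : Type v) [CommRing R] [IsDomain R] [Algebra K R] [CommRing S] [IsDomain S]
    [Algebra K S] : IsDomain (R ⊗[K] S) := by
  have hnt : Nontrivial (R ⊗[K] S) :=
    (Algebra.TensorProduct.includeLeft_injective (S := K) (R := K) (A := R) (B := S)
      (algebraMap K S).injective).nontrivial
  have hnzd : NoZeroDivisors (R ⊗[K] S) := ⟨fun h => g4_mul_eq_zero h⟩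
  exact NoZeroDivisors.to_isDomain _

end

end Fermat.Agent.S26.Curves.G4h6623
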